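import Fermat.Agent.S36.H61_B0Defs
import Fermat.Agent.S17.Height.H35_MoveD
import Fermat.Agent.S17.Height.H35_PencilFF
import Fermat.Agent.RED.H95_IsFF
import Fermat.Agent.S17.OpenStab

/-!
# S36 / NU-B0: Hilbert 90 descent for invariant torsion classes (proof)

`stmt_NUB0 N : Stmt_NUB0 N` for every `N ≠ 0`.

Proof: the abstract descent of helper35 (`S17/Height/H35_MoveD.lean`: normalised cocycle, twisted
action, descent by traces) applied to the group `H` itself, acting through
`arithmeticGalois`, with the leading `q`-expansion coefficient as the rational point `∞`.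
The open subgroups are the `Gal(ℚ̄/E) ∩ H`, `E` a number field.
-/

set_option autoImplicit false
set_option linter.style.haveILetI false

noncomputable section

open AlgebraicCurve ModularCurve IntermediateField

namespace Fermat.Agent.S36.H61

open Fermat.Agent.S17 Fermat.Agent.S17.H35 Fermat.Agent.RED.H42

attribute [local instance] qbar_isAlgebraic qbar_isAlgClosure qbar_isGalois

section Lead

variable {K L : Type*} [Field K] [Field L] (ι : K →+* L)

/-- a coefficientwise field embedding preserves the order of a Laurent series. -/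
theorem b0_order_coeffMap (f : LaurentSeries K) : (coeffMap ι f).order = f.order := by
  by_cases hf : f = 0
  · subst hf; simp
  · have hne : coeffMap ι f ≠ 0 := by
      intro h
      apply hf
      ext k
      have := congrArg (fun x => HahnSeries.coeff x k) h
      simp only [coeffMap_coeff, HahnSeries.coeff_zero] at this
      rw [HahnSeries.coeff_zero]
      exact ι.injective (by rw [this, map_zero])
    refine le_antisymm ?_ ?_
    · refine HahnSeries.order_le_of_coeff_ne_zero ?_
      rw [coeffMap_coeff]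
      intro h0
      exact HahnSeries.coeff_order_eq_zero.not.mpr hf (ι.injective (by rw [h0, map_zero]))
    · refine HahnSeries.order_le_of_coeff_ne_zero ?_
      intro h0
      have := HahnSeries.coeff_order_eq_zero.not.mpr hne
      apply this
      rw [coeffMap_coeff, h0, map_zero]

/-- a coefficientwise field embedding commutes with the leading coefficient. -/
theorem b0_leadingCoeff_coeffMap (f : LaurentSeries K) :
    (coeffMap ι f).leadingCoeff = ι f.leadingCoeff := by
  rw [HahnSeries.leadingCoeff_eq, HahnSeries.leadingCoeff_eq, b0_order_coeffMap, coeffMap_coeff]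

end Lead

/-- The absolute Galois group of `ℚ`. -/
abbrev GalQb : Type := AlgebraicClosure ℚ ≃ₐ[ℚ] AlgebraicClosure ℚ

variable (N : ℕ) (H : Subgroup GalQb)

/-- The arithmetic Galois action restricted to a subgroup. -/
def rhoH : ↥H →* SemilinearAut (AlgebraicClosure ℚ) ↥(modularFunctionFieldBar N) :=
  (arithmeticGalois (modularFunctionFieldFull N)).comp H.subtype

theorem rhoH_apply (σ : ↥H) :
    rhoH N H σ = arithmeticGalois (modularFunctionFieldFull N) (σ : GalQb) := rfl

/-- The leading `q`-expansion coefficient. -/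
def lcQ (f : ↥(modularFunctionFieldBar N)) : AlgebraicClosure ℚ :=
  (f : LaurentSeries (AlgebraicClosure ℚ)).leadingCoeff

theorem lcQ_galois (σ : GalQb) (f : ↥(modularFunctionFieldBar N)) :
    lcQ N (arithmeticGalois (modularFunctionFieldFull N) σ • f) = σ (lcQ N f) := by
  unfold lcQ
  rw [coe_arithmeticGalois_smul, b0_leadingCoeff_coeffMap]
  rfl

/-- The leading coefficient datum of `F_N · ℚ̄` for the action of `H`. -/
def leadCoeffH : LeadCoeff (rhoH N H) where
  lc := lcQ N
  lc_mul f g := by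
    unfold lcQ
    rw [← HahnSeries.leadingCoeff_mul]
    rfl
  lc_algebraMap c := by
    unfold lcQ
    have h : ((algebraMap (AlgebraicClosure ℚ) ↥(modularFunctionFieldBar N) c :
        ↥(modularFunctionFieldBar N)) : LaurentSeries (AlgebraicClosure ℚ))
        = HahnSeries.single 0 c := by
      rw [← algebraMap_laurentSeries_eq_single]
      rfl
    rw [h, HahnSeries.leadingCoeff_of_single]
  lc_smul σ f := by
    rw [rhoH_apply, lcQ_galois]
    rfl
  lc_ne_zero f hf := by
    unfold lcQ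
    rw [HahnSeries.leadingCoeff_ne_zero]
    intro h
    exact hf (Subtype.ext h)

/-! ### The open subgroups of `H` -/

/-- The subgroups `Gal(ℚ̄/E) ∩ H`, `E` a number field. -/
def openFamH : Set (Subgroup ↥H) :=
  {U | ∃ E : IntermediateField ℚ (AlgebraicClosure ℚ), FiniteDimensional ℚ E ∧
    U = E.fixingSubgroup.subgroupOf H}

theorem openFamH_top : ∃ U, U ∈ openFamH H :=
  ⟨_, ⊥, inferInstance, rfl⟩

theorem openFamH_inf :
    ∀ U ∈ openFamH H, ∀ V ∈ openFamH H, ∃ W ∈ openFamH H, W ≤ U ⊓ V := by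
  rintro U ⟨E₁, h₁, rfl⟩ V ⟨E₂, h₂, rfl⟩
  refine ⟨_, ⟨E₁ ⊔ E₂, IntermediateField.finiteDimensional_sup E₁ E₂, rfl⟩, ?_⟩
  intro σ hσ
  rw [Subgroup.mem_subgroupOf, IntermediateField.fixingSubgroup_sup] at hσ
  exact ⟨Subgroup.mem_subgroupOf.2 hσ.1, Subgroup.mem_subgroupOf.2 hσ.2⟩

theorem openFamH_elem (x : ↥(modularFunctionFieldBar N)) :
    ∃ U ∈ openFamH H, ∀ σ ∈ U, rhoH N H σ • x = x := by
  obtain ⟨E, hE, h⟩ := exists_field_fixing_elem (modularFunctionFieldFull N) x
  exact ⟨_, ⟨E, hE, rfl⟩, fun σ hσ => h σ (Subgroup.mem_subgroupOf.1 hσ)⟩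

theorem openFamH_fin : ∀ U ∈ openFamH H, U.FiniteIndex := by
  rintro U ⟨E, hE, rfl⟩
  haveI : E.fixingSubgroup.FiniteIndex := by
    rw [Subgroup.finiteIndex_iff, ← IntermediateField.finrank_eq_fixingSubgroup_index]
    exact Module.finrank_pos.ne'
  infer_instance

theorem openFamH_sep : ∀ U ∈ openFamH H, ∀ σ τ : ↥H,
    (∀ c : AlgebraicClosure ℚ,
      (∀ u ∈ U, SemilinearAut.baseAut (rhoH N H u) c = c) →
        SemilinearAut.baseAut (rhoH N H σ) c = SemilinearAut.baseAut (rhoH N H τ) c) →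
      σ⁻¹ * τ ∈ U := by
  rintro U ⟨E, hE, rfl⟩ σ τ h
  rw [Subgroup.mem_subgroupOf, IntermediateField.mem_fixingSubgroup_iff]
  intro c hc
  have h1 : (σ : GalQb) c = (τ : GalQb) c :=
    h c (fun u hu =>
      (IntermediateField.mem_fixingSubgroup_iff _ _).1 (Subgroup.mem_subgroupOf.1 hu) c hc)
  show ((σ : GalQb)⁻¹ * (τ : GalQb)) c = c
  rw [AlgEquiv.mul_apply, ← h1]
  exact (σ : GalQb).symm_apply_apply c

/-! ### The descent -/

section Main

variable [NeZero N]

/-- `F_N · ℚ̄` satisfies the hypotheses of Riemann's theorem. -/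
theorem hypFN : Hyp (AlgebraicClosure ℚ) ↥(modularFunctionFieldBar N) :=
  hyp_of_isFF _ _ (Fermat.Agent.RED.H95.isFF_FN N)

omit [NeZero N] in
/-- A class fixed by `H` has an `H`-invariant divisor class in the sense of `ClassInvariant`. -/
theorem classInvariant_of_fixed
    (D₀ : Divisor.degZero (K := AlgebraicClosure ℚ) (F := ↥(modularFunctionFieldBar N)))
    (hfix : ∀ σ ∈ H, σ • (Pic0.mk D₀ : JZero N) = Pic0.mk D₀) :
    ClassInvariant (rhoH N H)
      (D₀ : Divisor (AlgebraicClosure ℚ) ↥(modularFunctionFieldBar N)) := by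
  intro σ
  have h1 := hfix σ σ.2
  rw [galois_smul_pic0_def, SemilinearAut.pic0_smul_mk] at h1
  have h2 := (QuotientAddGroup.eq).1 h1
  rw [AddSubgroup.mem_addSubgroupOf] at h2
  obtain ⟨f, hf, hord⟩ := h2
  refine ⟨f⁻¹, inv_ne_zero hf, fun v => ?_⟩
  rw [Place.ord_inv, ← hord v]
  simp only [AddSubgroup.coe_add, NegMemClass.coe_neg, SemilinearAut.coe_degZeroSMulHom,
    Finsupp.coe_add, Finsupp.coe_neg, Pi.add_apply, Pi.neg_apply, rhoH_apply]
  ring

/-- Step 1: an `H`-invariant class has an `H`-invariant representative. -/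
theorem exists_invariant_rep
    (D₀ : Divisor.degZero (K := AlgebraicClosure ℚ) (F := ↥(modularFunctionFieldBar N)))
    (hfix : ∀ σ ∈ H, σ • (Pic0.mk D₀ : JZero N) = Pic0.mk D₀) :
    ∃ A : Divisor.degZero (K := AlgebraicClosure ℚ) (F := ↥(modularFunctionFieldBar N)),
      (Pic0.mk D₀ : JZero N) = Pic0.mk A ∧
      ∀ σ : ↥H, rhoH N H σ •
        (A : Divisor (AlgebraicClosure ℚ) ↥(modularFunctionFieldBar N)) = A := by
  have Hy := hypFN N
  have hD := classInvariant_of_fixed N H D₀ hfix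
  -- a nonzero vector fixed by the twisted action
  have h1 : (1 : ↥(modularFunctionFieldBar N)) ∈
      Submodule.span (AlgebraicClosure ℚ) (twistFixed (leadCoeffH N H) hD) :=
    mem_span_twistFixed (leadCoeffH N H) hD Hy (openFamH H) (openFamH_top H) (openFamH_inf H)
      (openFamH_elem N H) (openFamH_fin H) (openFamH_sep N H) 1
  obtain ⟨h₀, hh₀fix, hh₀ne⟩ : ∃ h₀ ∈ twistFixed (leadCoeffH N H) hD, h₀ ≠ 0 := by
    by_contra hcon
    simp only [not_exists, not_and, not_not] at hcon
    have hle : Submodule.span (AlgebraicClosure ℚ) (twistFixed (leadCoeffH N H) hD) ≤ ⊥ := by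
      rw [Submodule.span_le]
      intro f hf
      exact hcon f hf
    exact one_ne_zero ((Submodule.mem_bot _).1 (hle h1))
  -- the divisor of `h₀`
  obtain ⟨Dh, hDh, hdeg⟩ := Hy.principal h₀ hh₀ne
  have hAdeg : Dh + (D₀ : Divisor (AlgebraicClosure ℚ) ↥(modularFunctionFieldBar N)) ∈
      Divisor.degZero (K := AlgebraicClosure ℚ) (F := ↥(modularFunctionFieldBar N)) := by
    rw [Divisor.mem_degZero, map_add, hdeg, zero_add]
    exact D₀.2
  refine ⟨⟨_, hAdeg⟩, ?_, fun σ => ?_⟩
  · symm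
    refine (QuotientAddGroup.eq).2 ?_
    rw [AddSubgroup.mem_addSubgroupOf]
    refine ⟨h₀⁻¹, inv_ne_zero hh₀ne, fun v => ?_⟩
    rw [Place.ord_inv, ← hDh v]
    show (-(Dh + (D₀ : Divisor (AlgebraicClosure ℚ) ↥(modularFunctionFieldBar N)))
      + (D₀ : Divisor (AlgebraicClosure ℚ) ↥(modularFunctionFieldBar N))) v = -Dh v
    rw [Finsupp.add_apply, Finsupp.neg_apply, Finsupp.add_apply]
    ring
  · refine smul_divisor_eq_of_twist_fixed (leadCoeffH N H) hD (E := 0)
      (fun τ => smul_zero _) hh₀ne hh₀fix (fun v => ?_) σ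
    show (Dh + (D₀ : Divisor (AlgebraicClosure ℚ) ↥(modularFunctionFieldBar N))) v = _
    rw [Finsupp.add_apply, hDh v, Finsupp.zero_apply, add_zero]

/-- Step 2: the normalised function with divisor `n A`, `A` an `H`-invariant divisor, is fixed
by `H`. -/
theorem exists_fixed_function (n : ℕ)
    (A : Divisor.degZero (K := AlgebraicClosure ℚ) (F := ↥(modularFunctionFieldBar N)))
    (hAfix : ∀ σ : ↥H, rhoH N H σ •
        (A : Divisor (AlgebraicClosure ℚ) ↥(modularFunctionFieldBar N)) = A)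
    (hnA : n • (Pic0.mk A : JZero N) = 0) :
    ∃ h : ↥(modularFunctionFieldBar N), h ≠ 0 ∧
      (∀ P : Place (AlgebraicClosure ℚ) ↥(modularFunctionFieldBar N),
        (n : ℤ) * (A : Divisor (AlgebraicClosure ℚ) ↥(modularFunctionFieldBar N)) P
          = P.ord h) ∧
      (∀ σ : ↥H, rhoH N H σ • h = h) ∧ lcQ N h = 1 := by
  have Hy := hypFN N
  have h2 : (Pic0.mk (n • A) : JZero N) = 0 := by
    rw [← hnA]; rfl
  have h3 := (QuotientAddGroup.eq_zero_iff _).1 h2
  rw [AddSubgroup.mem_addSubgroupOf] at h3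
  obtain ⟨f, hf, hford⟩ := h3
  have hlcf : lcQ N f ≠ 0 := (leadCoeffH N H).lc_ne_zero f hf
  have hc0 : algebraMap (AlgebraicClosure ℚ) ↥(modularFunctionFieldBar N) (lcQ N f)⁻¹ ≠ 0 :=
    (map_ne_zero _).2 (inv_ne_zero hlcf)
  have hh0 : f * algebraMap (AlgebraicClosure ℚ) ↥(modularFunctionFieldBar N) (lcQ N f)⁻¹ ≠ 0 :=
    mul_ne_zero hf hc0
  have hhord : ∀ P : Place (AlgebraicClosure ℚ) ↥(modularFunctionFieldBar N),
      (n : ℤ) * (A : Divisor (AlgebraicClosure ℚ) ↥(modularFunctionFieldBar N)) P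
        = P.ord (f * algebraMap (AlgebraicClosure ℚ) ↥(modularFunctionFieldBar N)
            (lcQ N f)⁻¹) := by
    intro P
    rw [P.ord_mul hf hc0, ord_algebraMap_of_ne P (inv_ne_zero hlcf), add_zero, ← hford P]
    show _ = (n • (A : Divisor (AlgebraicClosure ℚ) ↥(modularFunctionFieldBar N))) P
    rw [Finsupp.smul_apply, nsmul_eq_mul]
  have hhlc : lcQ N (f * algebraMap (AlgebraicClosure ℚ) ↥(modularFunctionFieldBar N)
      (lcQ N f)⁻¹) = 1 := by
    have e1 := (leadCoeffH N H).lc_mul f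
      (algebraMap (AlgebraicClosure ℚ) ↥(modularFunctionFieldBar N) (lcQ N f)⁻¹)
    have e2 := (leadCoeffH N H).lc_algebraMap (lcQ N f)⁻¹
    change lcQ N _ = lcQ N f * lcQ N _ at e1
    change lcQ N _ = _ at e2
    rw [e1, e2]
    exact mul_inv_cancel₀ hlcf
  refine ⟨_, hh0, hhord, fun σ => ?_, hhlc⟩
  have hσh : rhoH N H σ • (f * algebraMap (AlgebraicClosure ℚ) ↥(modularFunctionFieldBar N)
      (lcQ N f)⁻¹) ≠ 0 := by
    rw [Ne, smul_eq_zero_iff_eq]
    exact hh0
  refine eq_of_ord_eq_of_lc_eq Hy (leadCoeffH N H) hσh hh0 (fun v => ?_) ?_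
  · rw [ord_smul', ← hhord, ← hhord]
    congr 1
    have := DFunLike.congr_fun (hAfix σ) v
    rw [SemilinearAut.divisor_smul_apply] at this
    exact this
  · have e3 := (leadCoeffH N H).lc_smul σ
      (f * algebraMap (AlgebraicClosure ℚ) ↥(modularFunctionFieldBar N) (lcQ N f)⁻¹)
    change lcQ N _ = SemilinearAut.baseAut (rhoH N H σ) (lcQ N _) at e3
    change lcQ N _ = lcQ N _
    rw [e3, hhlc, map_one]

/-- **NU-B0**: Hilbert 90 descent. -/
theorem stmt_NUB0 : Stmt_NUB0 N := by
  intro H n x hn hfix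
  obtain ⟨D₀, rfl⟩ := Pic0.mk_surjective x
  obtain ⟨A, hclass, hAfix⟩ := exists_invariant_rep N H D₀ hfix
  have hnA : n • (Pic0.mk A : JZero N) = 0 := by rw [← hclass]; exact hn
  obtain ⟨h, hh0, hhord, hhfix, hhlc⟩ := exists_fixed_function N H n A hAfix hnA
  refine ⟨A, h, hh0, hclass, hhord, fun σ hσ => hAfix ⟨σ, hσ⟩, fun σ hσ => hhfix ⟨σ, hσ⟩,
    hhlc, fun σ hσ k => ?_⟩
  have := congrArg (fun x : ↥(modularFunctionFieldBar N) =>
    (x : LaurentSeries (AlgebraicClosure ℚ)).coeff k) (hhfix ⟨σ, hσ⟩)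
  simp only [rhoH_apply, coe_arithmeticGalois_smul, coeffMap_coeff] at this
  exact this

end Main

end Fermat.Agent.S36.H61
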