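import Fermat.Agent.S36.H44_AlphaNorm
import Fermat.Agent.S36.H44_Crux

/-!
# S35 / S36, T-X (route Y), helper44: `β_*` commutes with the norm functions of `T_ℓ`

`ℓ` prime, `ℓ ∤ M q`, `β_q : F_M → F_{Mq}`, `f (q) ↦ f (q ^ q)`.  For `f ∈ F_{Mq}`:
`N_{β_q} (n_ℓ^{(Mq)} f) = n_ℓ^{(M)} (N_{β_q} f)`.

Base change of the norm in the square `β_q : F_M → F_{Mq}`, `β_q : F_{Mℓ} → F_{Mqℓ}`,
`β_ℓ : F_M → F_{Mℓ}`, `β_ℓ : F_{Mq} → F_{Mqℓ}`, with generator `j` of `F_{Mq} / β_q F_M`;
`β_ℓ j = j (q ^ ℓ)` generates `F_{Mqℓ}` over `β_q F_{Mℓ}` by the CRUX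
`F_{Mqℓ} = β_ℓ (F_{Mq}) (j (q ^ q))` (`adjoin_beta_jdF`).
-/

set_option autoImplicit false
set_option linter.style.haveILetI false
set_option linter.unusedSectionVars false

noncomputable section

namespace Fermat.Agent.S36.H44

open AlgebraicCurve ModularCurve Fermat.Agent.S24 Fermat.Agent.Lib.HeckeComm
  Fermat.Agent.GTor Fermat.Agent.GTor.H2

local notation "Kb" => AlgebraicClosure ℚ

section Generic

variable {K F F' : Type*} [Field K] [Field F] [Field F'] [Algebra K F] [Algebra K F']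

/-- Generation over `F` implies generation over `K` together with the image of `F`. -/
theorem adjoin_range_union_eq_top (φ : F →ₐ[K] F') (S : Set F')
    (h : letI := φ.toRingHom.toAlgebra; IntermediateField.adjoin F S = ⊤) :
    IntermediateField.adjoin K (Set.range φ ∪ S) = ⊤ := by
  letI := φ.toRingHom.toAlgebra
  let B : IntermediateField F F' :=
    { (IntermediateField.adjoin K (Set.range φ ∪ S)).toSubfield with
      algebraMap_mem' := fun x =>
        IntermediateField.subset_adjoin K _ (Or.inl ⟨x, rfl⟩) }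
  have hB : IntermediateField.adjoin F S ≤ B := by
    rw [IntermediateField.adjoin_le_iff]
    intro s hs
    exact IntermediateField.subset_adjoin K _ (Or.inr hs)
  rw [eq_top_iff]
  intro x _
  have hx : x ∈ IntermediateField.adjoin F S := by
    rw [h]; exact IntermediateField.mem_top
  exact hB hx

/-- Generation over `K` together with the image of `F` implies generation over `F`. -/
theorem adjoin_eq_top_of_range_union (φ : F →ₐ[K] F') (S : Set F')
    (h : IntermediateField.adjoin K (Set.range φ ∪ S) = ⊤) :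
    letI := φ.toRingHom.toAlgebra
    IntermediateField.adjoin F S = ⊤ := by
  letI := φ.toRingHom.toAlgebra
  let D : IntermediateField K F' :=
    { (IntermediateField.adjoin F S).toSubfield with
      algebraMap_mem' := fun c => by
        have hc : algebraMap K F' c = algebraMap F F' (algebraMap K F c) := (φ.commutes c).symm
        rw [hc]
        exact (IntermediateField.adjoin F S).algebraMap_mem _ }
  have hD : IntermediateField.adjoin K (Set.range φ ∪ S) ≤ D := by
    rw [IntermediateField.adjoin_le_iff]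
    rintro y (⟨x, rfl⟩ | hy)
    · exact (IntermediateField.adjoin F S).algebraMap_mem x
    · exact IntermediateField.subset_adjoin F S hy
  rw [eq_top_iff]
  intro x _
  have hx : x ∈ IntermediateField.adjoin K (Set.range φ ∪ S) := by
    rw [h]; exact IntermediateField.mem_top
  exact hD hx

/-- The image of a field generated by `T` lies in an intermediate field as soon as the image of
`T` does. -/
theorem range_subset_of_gens {F₁ : Type*} [Field F₁] [Algebra K F₁] (ψ : F₁ →ₐ[K] F')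
    (T : Set F₁) (hT : IntermediateField.adjoin K T = ⊤) (A : IntermediateField K F')
    (h : ∀ t ∈ T, ψ t ∈ A) (x : F₁) : ψ x ∈ A := by
  have hM : IntermediateField.comap ψ A = ⊤ := by
    rw [eq_top_iff, ← hT, IntermediateField.adjoin_le_iff]
    intro t ht
    exact h t ht
  have : x ∈ IntermediateField.comap ψ A := by
    rw [hM]; exact IntermediateField.mem_top
  exact this

end Generic

variable (M q ℓ : ℕ) [NeZero M] [NeZero q] [NeZero ℓ]

theorem dvd_lift' : M * ℓ * q ∣ M * q * ℓ := ⟨1, by ring⟩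

/-- `β_q : F_{Mℓ} → F_{Mqℓ}`, `g (q) ↦ g (q ^ q)`. -/
def betaLift : FN (M * ℓ) →ₐ[Kb] FN (M * q * ℓ) :=
  (inclFN (M * ℓ * q) (M * q * ℓ) (dvd_lift' M q ℓ)).comp (heckeBetaBar Kb (M * ℓ) q)

theorem coe_betaLift (x : FN (M * ℓ)) :
    (betaLift M q ℓ x : LaurentSeries Kb) = qExpand Kb q (x : LaurentSeries Kb) := by
  rw [betaLift, AlgHom.comp_apply, coe_inclFN, coe_heckeBetaBar]

theorem beta_square :
    (heckeAlphaBar Kb (M * q) ℓ).toRingHom.comp (heckeBetaBar Kb M q).toRingHom
      = (betaLift M q ℓ).toRingHom.comp (heckeAlphaBar Kb M ℓ).toRingHom := by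
  ext x
  simp only [RingHom.comp_apply, AlgHom.toRingHom_eq_coe, RingHom.coe_coe, coe_heckeAlphaBar,
    coe_betaLift, coe_heckeBetaBar]

theorem beta_square_beta (x : FN M) :
    (heckeBetaBar Kb (M * q) ℓ).toRingHom ((heckeBetaBar Kb M q).toRingHom x)
      = (betaLift M q ℓ).toRingHom ((heckeBetaBar Kb M ℓ).toRingHom x) := by
  apply Subtype.ext
  simp only [AlgHom.toRingHom_eq_coe, RingHom.coe_coe, coe_heckeBetaBar, coe_betaLift]
  exact qExpand_comm ℓ q _

theorem betaLift_finite : letI := (betaLift M q ℓ).toRingHom.toAlgebra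
    Module.Finite (FN (M * ℓ)) (FN (M * q * ℓ)) :=
  (Fermat.Agent.RED.H51.stmt_FFB_finite Kb _ _ (isFF_FN (M * ℓ)) (isFF_FN (M * q * ℓ))
    (betaLift M q ℓ)).2

theorem betaLift_finrank (hℓ : ℓ.Prime) (hℓM : ¬ ℓ ∣ M * q) :
    finrankHom (heckeBetaBar Kb M q).toRingHom = finrankHom (betaLift M q ℓ).toRingHom := by
  have hℓM' : ¬ ℓ ∣ M := fun h => hℓM (dvd_mul_of_dvd_left h q)
  exact finrank_eq_of_square _ _ _ _ (beta_square M q ℓ) (ℓ + 1) (Nat.succ_ne_zero ℓ)
    ((finrankHom_eq_finrankAlong _).trans (Fermat.Agent.RED.H95.finrankAlong_alpha hℓ hℓM'))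
    ((finrankHom_eq_finrankAlong _).trans (Fermat.Agent.RED.H95.finrankAlong_alpha hℓ hℓM))

/-- `β_q (j (q ^ M)) = j (q ^ (M q))`. -/
theorem beta_jdF_top' :
    heckeBetaBar Kb M q (jdF M M dvd_rfl) = jdF (M * q) (M * q) dvd_rfl := by
  rw [Fermat.Agent.RED.H95.beta_jdF]
  exact jdF_congr _ _ _ _ _ (mul_comm _ _)

/-- `j` generates `F_{Mq}` over `β_q (F_M)`. -/
theorem adjoin_beta_jF : letI := (heckeBetaBar Kb M q).toRingHom.toAlgebra
    IntermediateField.adjoin (FN M) {jF (M * q)} = ⊤ := by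
  apply adjoin_eq_top_of_range_union
  rw [eq_top_iff, ← H44.adjoin_jF_jdF (M * q), IntermediateField.adjoin_le_iff]
  rintro y (rfl | rfl)
  · exact IntermediateField.subset_adjoin Kb _ (Or.inr rfl)
  · exact IntermediateField.subset_adjoin Kb _ (Or.inl ⟨jdF M M dvd_rfl, beta_jdF_top' M q⟩)

/-- `β_ℓ j = j (q ^ ℓ)` generates `F_{Mqℓ}` over `β_q (F_{Mℓ})`. -/
theorem adjoin_betaLift (hℓ : ℓ.Prime) (hℓM : ¬ ℓ ∣ M * q) :
    letI := (betaLift M q ℓ).toRingHom.toAlgebra
    IntermediateField.adjoin (FN (M * ℓ)) {(heckeBetaBar Kb (M * q) ℓ).toRingHom (jF (M * q))}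
      = ⊤ := by
  apply adjoin_eq_top_of_range_union
  have hcrux := adjoin_range_union_eq_top (heckeBetaBar Kb (M * q) ℓ)
    {jdF (M * q * ℓ) q (dvd_mul_of_dvd_left (dvd_mul_left q M) ℓ)}
    (adjoin_beta_jdF (N := M * q) hℓ hℓM q (dvd_mul_left q M))
  rw [eq_top_iff, ← hcrux, IntermediateField.adjoin_le_iff]
  set A : IntermediateField Kb (FN (M * q * ℓ)) := IntermediateField.adjoin Kb
    (Set.range (betaLift M q ℓ) ∪ {(heckeBetaBar Kb (M * q) ℓ).toRingHom (jF (M * q))}) with hA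
  have hrange : ∀ x : FN (M * ℓ), betaLift M q ℓ x ∈ A := fun x =>
    IntermediateField.subset_adjoin Kb _ (Or.inl ⟨x, rfl⟩)
  rintro y (⟨x, rfl⟩ | hy)
  · -- the image of `β_ℓ`
    refine range_subset_of_gens (heckeBetaBar Kb (M * q) ℓ) _ (H44.adjoin_jF_jdF (M * q)) A ?_ x
    rintro t (rfl | rfl)
    · exact IntermediateField.subset_adjoin Kb _ (Or.inr rfl)
    · have e : heckeBetaBar Kb (M * q) ℓ (jdF (M * q) (M * q) dvd_rfl)
          = betaLift M q ℓ (jdF (M * ℓ) (M * ℓ) dvd_rfl) := by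
        apply Subtype.ext
        rw [coe_heckeBetaBar, coe_betaLift, Fermat.Agent.RED.H95.coe_jdF,
          Fermat.Agent.RED.H95.coe_jdF, qExpand_qExpand, qExpand_qExpand]
        exact qExpand_congr (by ring) _
      rw [e]
      exact hrange _
  · -- `j (q ^ q)`
    rw [Set.mem_singleton_iff] at hy
    have e : y = betaLift M q ℓ (jF (M * ℓ)) := by
      rw [hy]
      apply Subtype.ext
      rw [coe_betaLift, Fermat.Agent.RED.H95.coe_jdF]
      rfl
    rw [e]
    exact hrange _

/-- **`β_*` commutes with the norm functions.** -/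
theorem beta_norm_comm (hℓ : ℓ.Prime) (hℓM : ¬ ℓ ∣ M * q) (f : FN (M * q)) :
    normAlongHom (heckeBetaBar Kb M q).toRingHom (heckeNormFn Kb (M * q) ℓ f)
      = heckeNormFn Kb M ℓ (normAlongHom (heckeBetaBar Kb M q).toRingHom f) := by
  rw [heckeNormFn_eq_normAlongHom, heckeNormFn_eq_normAlongHom]
  exact norm_hecke_square (heckeBetaBar Kb M q).toRingHom (heckeAlphaBar Kb M ℓ).toRingHom
    (heckeBetaBar Kb M ℓ).toRingHom (heckeAlphaBar Kb (M * q) ℓ).toRingHom
    (heckeBetaBar Kb (M * q) ℓ).toRingHom (betaLift M q ℓ).toRingHom (beta_square M q ℓ)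
    (beta_square_beta M q ℓ) (beta_finite M q) (betaLift_finite M q ℓ)
    (jF (M * q)) (adjoin_beta_jF M q) (adjoin_betaLift M q ℓ hℓ hℓM)
    (betaLift_finrank M q ℓ hℓ hℓM) f

end Fermat.Agent.S36.H44
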