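import Fermat.Agent.S36.H44_PushComm
import Fermat.Agent.S36.H44_BetaNorm
import Fermat.Agent.GTor.TateDefs2

/-!
# S35 / S36, T-X (route Y), helper44: `GTor.Stmt_Y1 M q`, unconditionally

The degeneracy push-forwards `α_*, β_* : J₀(M q) → J₀(M)` commute with the Hecke operators `T_ℓ`,
`ℓ ∤ M q`, and their common kernel consists of `q`-new classes.  No hypothesis on `q`.
-/

set_option autoImplicit false
set_option linter.style.haveILetI false
set_option linter.unusedSectionVars false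

noncomputable section

namespace Fermat.Agent.S36.H44

open AlgebraicCurve ModularCurve Fermat.Agent.S24 Fermat.Agent.Lib.HeckeComm
  Fermat.Agent.GTor Fermat.Agent.GTor.H2

local notation "Kb" => AlgebraicClosure ℚ

/-- **`β_* T_ℓ = T_ℓ β_*`** for the primes `ℓ ∤ M q`. -/
theorem betaPush_hecke (M q : ℕ) [NeZero M] [NeZero q] (ℓ : Nat.Primes)
    (hℓ : ¬ (ℓ : ℕ) ∣ M * q) (x : JZero (M * q)) :
    betaPush M q (heckeOperatorBar (M * q) ℓ x) = heckeOperatorBar M ℓ (betaPush M q x) := by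
  haveI : NeZero (ℓ : ℕ) := ⟨ℓ.2.ne_zero⟩
  exact pic0Push_hecke_of M q ℓ (heckeBetaBar Kb M q) (beta_integral M q) (beta_finite M q)
    (beta_norm M q) (fun f _ => beta_norm_comm M q ℓ ℓ.2 hℓ f) x

/-- **(Y1)**, unconditionally. -/
theorem stmt_Y1 (M q : ℕ) [NeZero M] [NeZero q] : Fermat.Agent.GTor.Stmt_Y1 M q :=
  ⟨alphaPush M q, betaPush M q, fun ℓ hℓ x => alphaPush_hecke M q ℓ hℓ x,
    fun ℓ hℓ x => betaPush_hecke M q ℓ hℓ x, fun x h1 h2 => isQNew_of_push M q x h1 h2⟩

end Fermat.Agent.S36.H44
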