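import Fermat.Agent.Lib.HeckeComm.H2_NormBC

/-!
# S35 / S36, T-X (route Y), helper44: norms in a Hecke square (abstract)

Fields `A = F_M`, `B = F_{Mq}`, `C = F_{Mℓ}`, `D = F_{Mqℓ}`; `p : A → B` a degeneracy map at `q`,
`a, b : A → C` and `a', b' : B → D` the degeneracy maps at `ℓ`, `ι : C → D` the lift of `p`.

* `finrank_comp_h44` : the tower law for composites of ring homomorphisms of fields;
* `finrank_eq_of_square` : `[B : A] = [D : C]` if `[C : A] = [D : B] ≠ 0`;
* `norm_hecke_square` : `N_p (N_{a'} (b' f)) = N_a (b (N_p f))`.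
-/

set_option autoImplicit false
set_option linter.style.haveILetI false
set_option linter.unusedSectionVars false

noncomputable section

namespace Fermat.Agent.S36.H44

open Fermat.Agent.Lib.HeckeComm

/-- The degree of a ring homomorphism of fields. -/
def finrankHom {A B : Type*} [Field A] [Field B] (φ : A →+* B) : ℕ :=
  letI := φ.toAlgebra
  Module.finrank A B

theorem finrank_comp_h44 {A B C : Type*} [Field A] [Field B] [Field C]
    (φ : A →+* B) (ψ : B →+* C) :
    finrankHom (ψ.comp φ) = finrankHom φ * finrankHom ψ := by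
  letI := φ.toAlgebra
  letI := ψ.toAlgebra
  letI := (ψ.comp φ).toAlgebra
  haveI : IsScalarTower A B C := IsScalarTower.of_algebraMap_eq fun _ => rfl
  exact (Module.finrank_mul_finrank A B C).symm

/-- In a commutative square, equal nonzero degrees on one pair of opposite sides give equal
degrees on the other pair. -/
theorem finrank_eq_of_square {A B C D : Type*} [Field A] [Field B] [Field C] [Field D]
    (p : A →+* B) (a : A →+* C) (a' : B →+* D) (ι : C →+* D)
    (hsq : a'.comp p = ι.comp a) (n : ℕ) (hn : n ≠ 0)
    (ha : finrankHom a = n) (ha' : finrankHom a' = n) :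
    finrankHom p = finrankHom ι := by
  have h1 := finrank_comp_h44 p a'
  have h2 := finrank_comp_h44 a ι
  rw [hsq, h2, ha, ha'] at h1
  have h3 : n * finrankHom ι = n * finrankHom p := by rw [h1, mul_comm]
  exact (Nat.eq_of_mul_eq_mul_left (Nat.pos_of_ne_zero hn) h3).symm

/-- **Norms in a Hecke square.** -/
theorem norm_hecke_square {A B C D : Type*} [Field A] [Field B] [Field C] [Field D]
    (p : A →+* B) (a b : A →+* C) (a' b' : B →+* D) (ι : C →+* D)
    (ha : a'.comp p = ι.comp a) (hb : ∀ x : A, b' (p x) = ι (b x))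
    (hfin : letI := p.toAlgebra; Module.Finite A B)
    (hfin' : letI := ι.toAlgebra; Module.Finite C D)
    (x₀ : B) (hgen : letI := p.toAlgebra; IntermediateField.adjoin A {x₀} = ⊤)
    (hgen' : letI := ι.toAlgebra; IntermediateField.adjoin C {b' x₀} = ⊤)
    (hdeg : finrankHom p = finrankHom ι)
    (f : B) :
    normAlongHom p (normAlongHom a' (b' f)) = normAlongHom a (b (normAlongHom p f)) := by
  rw [normAlongHom_comp, normAlongHom_baseChange p ι b b' hb hfin hfin' x₀ hgen hgen' hdeg f,
    normAlongHom_comp, ha]

end Fermat.Agent.S36.H44
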