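import Fermat.Agent.S36.H44_AlphaNorm

/-!
# S35 / S36, T-X (route Y), helper44: from norm functions to `J₀`

A push-forward `p_* : J₀(M q) → J₀(M)` (along any `p : F_M → F_{Mq}`) commutes with `T_ℓ` as soon
as the norm `N_p` commutes with the norm functions `n_ℓ` of the Hecke correspondences
(principle of helper2: additive maps on divisors with finite preimage supports are determined by
their values on principal divisors).

* `pushforwardAlong_ord` : `p_* (div f) = div (N_p f)`;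
* `push_heckeDiv_comm_of` : on divisors;
* `pic0Push_hecke_of` : on `J₀`;
* `alphaPush_hecke` : `α_* T_ℓ = T_ℓ α_*` for the primes `ℓ ∤ M q`.
-/

set_option autoImplicit false
set_option linter.style.haveILetI false
set_option linter.unusedSectionVars false

noncomputable section

namespace Fermat.Agent.S36.H44

open AlgebraicCurve ModularCurve Fermat.Agent.S24 Fermat.Agent.Lib.HeckeComm
  Fermat.Agent.GTor Fermat.Agent.GTor.H2

local notation "Kb" => AlgebraicClosure ℚ

section Generic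

variable {K F F' : Type*} [Field K] [Field F] [Field F'] [Algebra K F] [Algebra K F']

/-- `φ_* (div f) = div (N_φ f)`. -/
theorem pushforwardAlong_ord (φ : F →ₐ[K] F') (hφ : φ.toRingHom.IsIntegral)
    (hfin : FiniteAlong K φ) (hN : NormFormulaAlong K φ hfin) {f : F'} (hf : f ≠ 0)
    (D : Divisor K F') (hD : ∀ w : Place K F', D w = w.ord f) (v : Place K F) :
    Divisor.pushforwardAlong φ hφ D v = v.ord (normAlongHom φ.toRingHom f) := by
  letI := algebraAlong φ
  haveI := isScalarTower_along φ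
  haveI := isIntegral_along φ hφ
  haveI : Module.Finite F F' := hfin
  exact hN f hf D hD v

theorem normAlongHom_ne_zero (φ : F →ₐ[K] F') (hfin : FiniteAlong K φ) {f : F'} (hf : f ≠ 0) :
    normAlongHom φ.toRingHom f ≠ 0 := by
  letI := algebraAlong φ
  haveI : Module.Finite F F' := hfin
  exact Algebra.norm_ne_zero_iff.mpr hf

end Generic

section Modular

variable (M q ℓ : ℕ) [NeZero M] [NeZero q] [NeZero ℓ]

/-- A push-forward commutes with the Hecke correspondence on divisors if the norm commutes with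
the norm functions. -/
theorem push_heckeDiv_comm_of (p : FN M →ₐ[Kb] FN (M * q)) (hp : p.toRingHom.IsIntegral)
    (hpfin : FiniteAlong Kb p) (hpN : NormFormulaAlong Kb p hpfin)
    (hα : HeckeAlphaBarIntegral Kb M ℓ) (hβ : HeckeBetaBarIntegral Kb M ℓ)
    (hP : HasPrincipalDivisors Kb (laurentBaseChange Kb (modularFunctionFieldFull (M * ℓ))))
    (hfin : FiniteAlong Kb (heckeAlphaBar Kb M ℓ))
    (hN : NormFormulaAlong Kb (heckeAlphaBar Kb M ℓ) hfin)
    (hα' : HeckeAlphaBarIntegral Kb (M * q) ℓ) (hβ' : HeckeBetaBarIntegral Kb (M * q) ℓ)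
    (hP' : HasPrincipalDivisors Kb
      (laurentBaseChange Kb (modularFunctionFieldFull (M * q * ℓ))))
    (hfin' : FiniteAlong Kb (heckeAlphaBar Kb (M * q) ℓ))
    (hN' : NormFormulaAlong Kb (heckeAlphaBar Kb (M * q) ℓ) hfin')
    (hcomm : ∀ f : FN (M * q), f ≠ 0 →
      normAlongHom p.toRingHom (heckeNormFn Kb (M * q) ℓ f)
        = heckeNormFn Kb M ℓ (normAlongHom p.toRingHom f)) :
    (Divisor.pushforwardAlong p hp).comp (heckeDivBar (L := Kb) hα' hβ')
      = (heckeDivBar (L := Kb) hα hβ).comp (Divisor.pushforwardAlong p hp) := by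
  haveI := hasPrincipalDivisors_FN (M * q)
  refine eq_of_eq_on_principal _ _
    (FinPre.comp (finPre_pushforwardAlong p hp) (finPre_heckeDivBar (M * q) ℓ hα' hβ'))
    (FinPre.comp (finPre_heckeDivBar M ℓ hα hβ) (finPre_pushforwardAlong p hp)) ?_
  intro f D hf hD
  apply Finsupp.ext
  intro v
  rw [AddMonoidHom.comp_apply, AddMonoidHom.comp_apply]
  have h1 := heckeDivBar_ord (M * q) ℓ hα' hβ' hfin' hN' D hf hD
  have h2 := pushforwardAlong_ord p hp hpfin hpN hf D hD
  have hf1 : heckeNormFn Kb (M * q) ℓ f ≠ 0 := heckeNormFn_ne_zero Kb (M * q) ℓ hfin' hf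
  have hf2 : normAlongHom p.toRingHom f ≠ 0 := normAlongHom_ne_zero p hpfin hf
  rw [pushforwardAlong_ord p hp hpfin hpN hf1 _ h1 v,
    heckeDivBar_ord M ℓ hα hβ hfin hN _ hf2 h2 v, hcomm f hf]

end Modular

/-- A push-forward commutes with `T_ℓ` on `J₀` if the norm commutes with the norm functions. -/
theorem pic0Push_hecke_of (M q : ℕ) [NeZero M] [NeZero q] (ℓ : Nat.Primes)
    (p : FN M →ₐ[Kb] FN (M * q)) (hp : p.toRingHom.IsIntegral)
    (hpfin : FiniteAlong Kb p) (hpN : NormFormulaAlong Kb p hpfin)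
    (hcomm : haveI : NeZero (ℓ : ℕ) := ⟨ℓ.2.ne_zero⟩
      ∀ f : FN (M * q), f ≠ 0 →
      normAlongHom p.toRingHom (heckeNormFn Kb (M * q) ℓ f)
        = heckeNormFn Kb M ℓ (normAlongHom p.toRingHom f))
    (x : JZero (M * q)) :
    pic0Push p hp hpfin hpN (heckeOperatorBar (M * q) ℓ x)
      = heckeOperatorBar M ℓ (pic0Push p hp hpfin hpN x) := by
  haveI : NeZero (ℓ : ℕ) := ⟨ℓ.2.ne_zero⟩
  obtain ⟨hα, hβ, hP, hfin, hFI, hN⟩ := Fermat.Agent.RED.H51.stmt_HKA M ℓ
  obtain ⟨hα', hβ', hP', hfin', hFI', hN'⟩ := Fermat.Agent.RED.H51.stmt_HKA (M * q) ℓ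
  have hdiv := push_heckeDiv_comm_of M q ℓ p hp hpfin hpN hα hβ hP hfin hN hα' hβ' hP' hfin' hN'
    hcomm
  obtain ⟨D, rfl⟩ := Pic0.mk_surjective x
  rw [heckeOperatorBar_mk (M * q) ℓ hα' hβ' hP' hfin' hFI' hN' D, pic0Push_mk, pic0Push_mk,
    heckeOperatorBar_mk M ℓ hα hβ hP hfin hFI hN]
  congr 1
  apply Subtype.ext
  rw [coe_degZeroPush, Pic0.coe_degZeroCorrespondence, Pic0.coe_degZeroCorrespondence,
    coe_degZeroPush]
  exact congrArg (fun Φ : Divisor Kb (FN (M * q)) →+ Divisor Kb (FN M) =>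
    Φ (D : Divisor Kb (FN (M * q)))) hdiv

/-- **`α_* T_ℓ = T_ℓ α_*`** for the primes `ℓ ∤ M q`. -/
theorem alphaPush_hecke (M q : ℕ) [NeZero M] [NeZero q] (ℓ : Nat.Primes)
    (hℓ : ¬ (ℓ : ℕ) ∣ M * q) (x : JZero (M * q)) :
    alphaPush M q (heckeOperatorBar (M * q) ℓ x) = heckeOperatorBar M ℓ (alphaPush M q x) := by
  haveI : NeZero (ℓ : ℕ) := ⟨ℓ.2.ne_zero⟩
  exact pic0Push_hecke_of M q ℓ (heckeAlphaBar Kb M q) (alpha_integral M q) (alpha_finite M q)
    (alpha_norm M q) (fun f _ => alpha_norm_comm M q ℓ ℓ.2 hℓ f) x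

end Fermat.Agent.S36.H44
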