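import Fermat.Agent.S35.H89_TorsDefs
import Fermat.Agent.RED.H51_HKA

/-!
# S35 / S36, T-X (route Y), helper44: the degeneracy push-forwards on `J₀`

* `pic0Push φ hφ hfin hN : Pic0 K F' →+ Pic0 K F` : the push-forward of divisor classes of degree
  `0` along a finite morphism of function fields (generic).
* `alphaPush M q`, `betaPush M q : JZero (M * q) →+ JZero M` : the push-forwards along the two
  degeneracy maps `heckeAlphaBar`, `heckeBetaBar`.
* `isQNew_iff` : `IsQNew M q x ↔ alphaPush M q x = 0 ∧ betaPush M q x = 0`.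
-/

set_option autoImplicit false
set_option linter.style.haveILetI false
set_option linter.unusedSectionVars false

noncomputable section

namespace Fermat.Agent.S36.H44

open AlgebraicCurve ModularCurve

local notation "Kb" => AlgebraicClosure ℚ

section Generic

variable {K F F' : Type*} [Field K] [Field F] [Field F'] [Algebra K F] [Algebra K F']
variable (φ : F →ₐ[K] F') (hφ : φ.toRingHom.IsIntegral)

/-- The push-forward on divisors of degree `0`. -/
def degZeroPush :
    Divisor.degZero (K := K) (F := F') →+ Divisor.degZero (K := K) (F := F) :=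
  ((Divisor.pushforwardAlong φ hφ).comp (Divisor.degZero (K := K) (F := F')).subtype).codRestrict _
    (fun D => Divisor.pushforwardAlong_mem_degZero φ hφ D.2)

@[simp]
theorem coe_degZeroPush (D : Divisor.degZero (K := K) (F := F')) :
    (degZeroPush φ hφ D : Divisor K F) = Divisor.pushforwardAlong φ hφ (D : Divisor K F') :=
  rfl

variable (hfin : FiniteAlong K φ) (hN : NormFormulaAlong K φ hfin)

/-- The push-forward on `Pic⁰`. -/
def pic0Push : Pic0 K F' →+ Pic0 K F :=
  QuotientAddGroup.map _ _ (degZeroPush φ hφ) (by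
    rintro ⟨D, hD0⟩ hD
    simp only [AddSubgroup.mem_addSubgroupOf] at hD ⊢
    exact Divisor.isPrincipal_pushforwardAlong φ hφ hfin hN hD)

theorem pic0Push_mk (D : Divisor.degZero (K := K) (F := F')) :
    pic0Push φ hφ hfin hN (Pic0.mk D) = Pic0.mk (degZeroPush φ hφ D) :=
  rfl

theorem pic0_mk_eq_zero_iff (D : Divisor.degZero (K := K) (F := F)) :
    Pic0.mk D = 0 ↔ (D : Divisor K F).IsPrincipal := by
  rw [Pic0.mk, QuotientAddGroup.eq_zero_iff, AddSubgroup.mem_addSubgroupOf]
  rfl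

theorem pic0Push_mk_eq_zero_iff (D : Divisor.degZero (K := K) (F := F')) :
    pic0Push φ hφ hfin hN (Pic0.mk D) = 0
      ↔ (Divisor.pushforwardAlong φ hφ (D : Divisor K F')).IsPrincipal := by
  rw [pic0Push_mk, pic0_mk_eq_zero_iff, coe_degZeroPush]

end Generic

section Modular

variable (M q : ℕ) [NeZero M] [NeZero q]

theorem isFF_FN (N : ℕ) [NeZero N] : Fermat.Agent.RED.IsFF Kb ↥(modularFunctionFieldBar N) :=
  Fermat.Agent.RED.H95.stmt_HKA_isFF N

theorem alpha_integral : HeckeAlphaBarIntegral Kb M q :=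
  (Fermat.Agent.RED.H51.stmt_FFB_finite Kb _ _ (isFF_FN M) (isFF_FN (M * q))
    (heckeAlphaBar Kb M q)).1

theorem alpha_finite : FiniteAlong Kb (heckeAlphaBar Kb M q) :=
  (Fermat.Agent.RED.H51.stmt_FFB_finite Kb _ _ (isFF_FN M) (isFF_FN (M * q))
    (heckeAlphaBar Kb M q)).2

theorem alpha_norm : NormFormulaAlong Kb (heckeAlphaBar Kb M q) (alpha_finite M q) :=
  Fermat.Agent.RED.H51.stmt_FFB_norm Kb _ _ (isFF_FN M) (isFF_FN (M * q)) _ _

theorem beta_integral : HeckeBetaBarIntegral Kb M q :=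
  (Fermat.Agent.RED.H51.stmt_FFB_finite Kb _ _ (isFF_FN M) (isFF_FN (M * q))
    (heckeBetaBar Kb M q)).1

theorem beta_finite : FiniteAlong Kb (heckeBetaBar Kb M q) :=
  (Fermat.Agent.RED.H51.stmt_FFB_finite Kb _ _ (isFF_FN M) (isFF_FN (M * q))
    (heckeBetaBar Kb M q)).2

theorem beta_norm : NormFormulaAlong Kb (heckeBetaBar Kb M q) (beta_finite M q) :=
  Fermat.Agent.RED.H51.stmt_FFB_norm Kb _ _ (isFF_FN M) (isFF_FN (M * q)) _ _

/-- `α_* : J₀(M q) → J₀(M)`. -/
def alphaPush : JZero (M * q) →+ JZero M :=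
  pic0Push (heckeAlphaBar Kb M q) (alpha_integral M q) (alpha_finite M q) (alpha_norm M q)

/-- `β_* : J₀(M q) → J₀(M)`. -/
def betaPush : JZero (M * q) →+ JZero M :=
  pic0Push (heckeBetaBar Kb M q) (beta_integral M q) (beta_finite M q) (beta_norm M q)

theorem alphaPush_mk (D : Divisor.degZero (K := Kb) (F := ↥(modularFunctionFieldBar (M * q)))) :
    alphaPush M q (Pic0.mk D)
      = Pic0.mk (degZeroPush (heckeAlphaBar Kb M q) (alpha_integral M q) D) :=
  rfl

theorem betaPush_mk (D : Divisor.degZero (K := Kb) (F := ↥(modularFunctionFieldBar (M * q)))) :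
    betaPush M q (Pic0.mk D)
      = Pic0.mk (degZeroPush (heckeBetaBar Kb M q) (beta_integral M q) D) :=
  rfl

/-- **`q`-new = killed by both degeneracy push-forwards.** -/
theorem isQNew_iff (x : JZero (M * q)) :
    Fermat.Agent.S35.H89.IsQNew M q x ↔ alphaPush M q x = 0 ∧ betaPush M q x = 0 := by
  constructor
  · rintro ⟨hα, hβ, D, rfl, h1, h2⟩
    exact ⟨(pic0Push_mk_eq_zero_iff _ _ _ _ D).mpr h1, (pic0Push_mk_eq_zero_iff _ _ _ _ D).mpr h2⟩
  · rintro ⟨h1, h2⟩
    obtain ⟨D, rfl⟩ := Pic0.mk_surjective x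
    exact ⟨alpha_integral M q, beta_integral M q, D, rfl,
      (pic0Push_mk_eq_zero_iff _ _ _ _ D).mp h1, (pic0Push_mk_eq_zero_iff _ _ _ _ D).mp h2⟩

theorem isQNew_of_push (x : JZero (M * q)) (h1 : alphaPush M q x = 0) (h2 : betaPush M q x = 0) :
    Fermat.Agent.S35.H89.IsQNew M q x :=
  (isQNew_iff M q x).mpr ⟨h1, h2⟩

end Modular

end Fermat.Agent.S36.H44
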