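import Fermat.Agent.S36.H44_Push
import Fermat.Agent.S36.H44_NormSq
import Fermat.Agent.Lib.HeckeComm.H2_CommAll
import Fermat.Agent.RED.ES.H95_NormAlpha

/-!
# S35 / S36, T-X (route Y), helper44: `α_*` commutes with the norm functions of `T_ℓ`

`ℓ` prime, `ℓ ∤ M q`.  For `f ∈ F_{Mq}`:
`N_{F_{Mq}/F_M} (n_ℓ^{(Mq)} f) = n_ℓ^{(M)} (N_{F_{Mq}/F_M} f)`,
where `n_ℓ f = Norm_α (β f)` is the norm function of the Hecke correspondence
(`GTor.H2.heckeNormFn`).

Proof: transitivity of norms and base change of the norm in the square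
`F_M ⊂ F_{Mq}`, `F_{Mℓ} ⊂ F_{Mqℓ}`, `β_ℓ` (generator `j (q ^ (M q))`, package G; degrees by
`finrankAlong_alpha` of helper95 and the tower law).
-/

set_option autoImplicit false
set_option linter.style.haveILetI false
set_option linter.unusedSectionVars false

noncomputable section

namespace Fermat.Agent.S36.H44

open AlgebraicCurve ModularCurve Fermat.Agent.S24 Fermat.Agent.Lib.HeckeComm
  Fermat.Agent.GTor Fermat.Agent.GTor.H2

local notation "Kb" => AlgebraicClosure ℚ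

variable (M q ℓ : ℕ) [NeZero M] [NeZero q] [NeZero ℓ]

theorem dvd_lift : M * ℓ ∣ M * q * ℓ := ⟨q, by ring⟩

/-- The inclusion `F_{Mℓ} ⊂ F_{Mqℓ}`. -/
def alphaLift : FN (M * ℓ) →ₐ[Kb] FN (M * q * ℓ) := inclFN (M * ℓ) (M * q * ℓ) (dvd_lift M q ℓ)

theorem coe_alphaLift (x : FN (M * ℓ)) :
    (alphaLift M q ℓ x : LaurentSeries Kb) = (x : LaurentSeries Kb) :=
  coe_inclFN _ _ _ x

theorem finrankHom_eq_finrankAlong {K F F' : Type*} [Field K] [Field F] [Field F'] [Algebra K F]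
    [Algebra K F'] (φ : F →ₐ[K] F') : finrankHom φ.toRingHom = finrankAlong K φ := rfl

theorem alpha_square :
    (heckeAlphaBar Kb (M * q) ℓ).toRingHom.comp (heckeAlphaBar Kb M q).toRingHom
      = (alphaLift M q ℓ).toRingHom.comp (heckeAlphaBar Kb M ℓ).toRingHom := by
  ext x
  simp only [RingHom.comp_apply, AlgHom.toRingHom_eq_coe, RingHom.coe_coe, coe_heckeAlphaBar,
    coe_alphaLift]

theorem alpha_square_beta (x : FN M) :
    (heckeBetaBar Kb (M * q) ℓ).toRingHom ((heckeAlphaBar Kb M q).toRingHom x)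
      = (alphaLift M q ℓ).toRingHom ((heckeBetaBar Kb M ℓ).toRingHom x) := by
  apply Subtype.ext
  simp only [AlgHom.toRingHom_eq_coe, RingHom.coe_coe, coe_heckeBetaBar, coe_heckeAlphaBar,
    coe_alphaLift]

theorem alphaLift_finite : letI := (alphaLift M q ℓ).toRingHom.toAlgebra
    Module.Finite (FN (M * ℓ)) (FN (M * q * ℓ)) :=
  stmt_Fin (M * ℓ) (M * q * ℓ) (dvd_lift M q ℓ)

theorem alphaLift_finrank (hℓ : ℓ.Prime) (hℓM : ¬ ℓ ∣ M * q) :
    finrankHom (heckeAlphaBar Kb M q).toRingHom = finrankHom (alphaLift M q ℓ).toRingHom := by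
  have hℓM' : ¬ ℓ ∣ M := fun h => hℓM (dvd_mul_of_dvd_left h q)
  exact finrank_eq_of_square _ _ _ _ (alpha_square M q ℓ) (ℓ + 1) (Nat.succ_ne_zero ℓ)
    ((finrankHom_eq_finrankAlong _).trans (Fermat.Agent.RED.H95.finrankAlong_alpha hℓ hℓM'))
    ((finrankHom_eq_finrankAlong _).trans (Fermat.Agent.RED.H95.finrankAlong_alpha hℓ hℓM))

theorem beta_jdF_top :
    (heckeBetaBar Kb (M * q) ℓ).toRingHom (jdF (M * q) (M * q) dvd_rfl)
      = jdF (M * q * ℓ) (M * q * ℓ) dvd_rfl := by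
  show heckeBetaBar Kb (M * q) ℓ (jdF (M * q) (M * q) dvd_rfl) = _
  rw [Fermat.Agent.RED.H95.beta_jdF]
  exact jdF_congr _ _ _ _ _ (mul_comm _ _)

/-- **`α_*` commutes with the norm functions.** -/
theorem alpha_norm_comm (hℓ : ℓ.Prime) (hℓM : ¬ ℓ ∣ M * q) (f : FN (M * q)) :
    normAlongHom (heckeAlphaBar Kb M q).toRingHom (heckeNormFn Kb (M * q) ℓ f)
      = heckeNormFn Kb M ℓ (normAlongHom (heckeAlphaBar Kb M q).toRingHom f) := by
  rw [heckeNormFn_eq_normAlongHom, heckeNormFn_eq_normAlongHom]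
  refine norm_hecke_square (heckeAlphaBar Kb M q).toRingHom (heckeAlphaBar Kb M ℓ).toRingHom
    (heckeBetaBar Kb M ℓ).toRingHom (heckeAlphaBar Kb (M * q) ℓ).toRingHom
    (heckeBetaBar Kb (M * q) ℓ).toRingHom (alphaLift M q ℓ).toRingHom (alpha_square M q ℓ)
    (alpha_square_beta M q ℓ) (alpha_finite M q) (alphaLift_finite M q ℓ)
    (jdF (M * q) (M * q) dvd_rfl) (stmt_GenJ M (M * q) (dvd_mul_right M q)) ?_
    (alphaLift_finrank M q ℓ hℓ hℓM) f
  rw [beta_jdF_top]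
  exact stmt_GenJ (M * ℓ) (M * q * ℓ) (dvd_lift M q ℓ)

end Fermat.Agent.S36.H44
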