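import Fermat.Prelude.Def_ModularCurve_ArithmeticGalois

/-!
# S36 / NU-B0: Hilbert 90 descent for invariant torsion classes (statement)

`F = ℚ̄(X₀(N)) ⊂ ℚ̄((q))`, `G_ℚ` acting on the coefficients of `q`-expansions.
For ANY subgroup `H ≤ G_ℚ` (for instance an inertia group `A.inertiaSubgroupIn ℚ`):
a class `x ∈ J₀(N)[n]` fixed by `H` is the class of an `H`-invariant divisor `D` of degree `0`,
and `n D = div h` for a function `h` fixed by `H`, with leading `q`-expansion coefficient `1`
(so all `q`-expansion coefficients of `h` lie in the fixed field of `H`).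
-/

set_option autoImplicit false

noncomputable section

open AlgebraicCurve ModularCurve

namespace Fermat.Agent.S36.H61

/-- **NU-B0** (Hilbert 90 descent). -/
def Stmt_NUB0 (N : ℕ) : Prop :=
  ∀ (H : Subgroup (AlgebraicClosure ℚ ≃ₐ[ℚ] AlgebraicClosure ℚ)) (n : ℕ) (x : JZero N),
    n • x = 0 → (∀ σ ∈ H, σ • x = x) →
    ∃ (D : Divisor.degZero (K := AlgebraicClosure ℚ) (F := ↥(modularFunctionFieldBar N)))
      (h : ↥(modularFunctionFieldBar N)),
      h ≠ 0 ∧ x = Pic0.mk D ∧
      (∀ P : Place (AlgebraicClosure ℚ) ↥(modularFunctionFieldBar N),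
        (n : ℤ) * (D : Divisor (AlgebraicClosure ℚ) ↥(modularFunctionFieldBar N)) P
          = P.ord h) ∧
      (∀ σ ∈ H, arithmeticGalois (modularFunctionFieldFull N) σ •
          (D : Divisor (AlgebraicClosure ℚ) ↥(modularFunctionFieldBar N)) = D) ∧
      (∀ σ ∈ H, arithmeticGalois (modularFunctionFieldFull N) σ • h = h) ∧
      (h : LaurentSeries (AlgebraicClosure ℚ)).leadingCoeff = 1 ∧
      (∀ σ ∈ H, ∀ k : ℤ, σ ((h : LaurentSeries (AlgebraicClosure ℚ)).coeff k)
          = (h : LaurentSeries (AlgebraicClosure ℚ)).coeff k)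

end Fermat.Agent.S36.H61
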